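import Mathlib.NumberTheory.Padics.RingHoms
import Mathlib.AlgebraicGeometry.EllipticCurve.VariableChange
import Mathlib.AlgebraicGeometry.EllipticCurve.Affine.Point
import Mathlib.Tactic.LinearCombination
import Fermat.Prelude.Def_FLTPrelim_Modularity

/-!
# Independence of `a_ℓ` of the choice of integral model

Two integral models of one rational Weierstrass curve have the same point count modulo every
prime at which both are good, and a semistable model is good wherever some integral model is.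
-/

set_option autoImplicit false

open WeierstrassCurve

namespace Fermat.Agent.LevelTwo

section Points

variable {R : Type*} [CommRing R] (C : VariableChange R) (W : WeierstrassCurve R)

/-- A change of variables respects nonsingular points. -/
theorem variableChange_nonsingular_iff (x y : R) :
    (C • W).toAffine.Nonsingular x y ↔
      W.toAffine.Nonsingular ((C.u : R) ^ 2 * x + C.r)
        ((C.u : R) ^ 3 * y + (C.u : R) ^ 2 * C.s * x + C.t) := by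
  set x' := (C.u : R) ^ 2 * x + C.r with hx'
  set y' := (C.u : R) ^ 3 * y + (C.u : R) ^ 2 * C.s * x + C.t with hy'
  have hC : (⟨1, x, 0, y⟩ : VariableChange R) * C = ⟨C.u, 0, C.s, 0⟩ * ⟨1, x', 0, y'⟩ := by
    simp only [VariableChange.mul_def, hx', hy', one_mul, mul_one, Units.val_one, VariableChange.mk.injEq]
    refine ⟨trivial, ?_, ?_, ?_⟩ <;> ring
  rw [Affine.nonsingular_iff_variableChange (W := (C • W).toAffine),
    Affine.nonsingular_iff_variableChange (W := W.toAffine)]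
  simp only [WeierstrassCurve.toAffine]
  rw [← mul_smul, hC, mul_smul]
  generalize (⟨1, x', 0, y'⟩ : VariableChange R) • W = V
  simp only [Affine.nonsingular_zero, variableChange_a₃, variableChange_a₄, variableChange_a₆,
    zero_mul, mul_zero, add_zero, sub_zero, ne_eq, zero_pow two_ne_zero,
    zero_pow three_ne_zero]
  refine and_congr ?_ ?_
  · exact IsUnit.mul_right_eq_zero (C.u⁻¹.isUnit.pow 6)
  · rw [IsUnit.mul_right_eq_zero (C.u⁻¹.isUnit.pow 3),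
      IsUnit.mul_right_eq_zero (C.u⁻¹.isUnit.pow 4)]
    constructor
    · rintro (h | h)
      · exact Or.inl h
      · by_cases h3 : V.a₃ = 0
        · exact Or.inr fun h4 => h (by rw [h3, h4]; ring)
        · exact Or.inl h3
    · rintro (h | h)
      · exact Or.inl h
      · by_cases h3 : V.a₃ = 0
        · exact Or.inr fun h4 => h (by rw [h3] at h4; simpa using h4)
        · exact Or.inl h3

/-- The bijection of coordinates attached to a change of variables. -/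
def coordEquiv : R × R ≃ R × R where
  toFun z := ((C.u : R) ^ 2 * z.1 + C.r,
    (C.u : R) ^ 3 * z.2 + (C.u : R) ^ 2 * C.s * z.1 + C.t)
  invFun z := ((↑C.u⁻¹ : R) ^ 2 * (z.1 - C.r),
    (↑C.u⁻¹ : R) ^ 3 * (z.2 - C.s * (z.1 - C.r) - C.t))
  left_inv z := by
    have h := C.u.inv_mul
    refine Prod.ext ?_ ?_ <;> dsimp only
    · linear_combination z.1 * pow_mul_pow_eq_one 2 h
    · linear_combination z.2 * pow_mul_pow_eq_one 3 h
  right_inv z := by
    have h := C.u.mul_inv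
    refine Prod.ext ?_ ?_ <;> dsimp only
    · linear_combination (z.1 - C.r) * pow_mul_pow_eq_one 2 h
    · linear_combination (z.2 - C.s * (z.1 - C.r) - C.t) * pow_mul_pow_eq_one 3 h +
        C.s * (z.1 - C.r) * pow_mul_pow_eq_one 2 h

/-- A change of variables gives a bijection on nonsingular points. -/
def pointEquiv : (C • W).toAffine.Point ≃ W.toAffine.Point where
  toFun
    | .zero => .zero
    | .some x y h => .some _ _ ((variableChange_nonsingular_iff C W x y).1 h)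
  invFun
    | .zero => .zero
    | .some x y h => .some ((coordEquiv C).symm (x, y)).1 ((coordEquiv C).symm (x, y)).2
        ((variableChange_nonsingular_iff C W _ _).2 (by
          have e := (coordEquiv C).apply_symm_apply (x, y)
          rw [Prod.ext_iff] at e
          convert h using 1
          · exact e.1
          · exact e.2))
  left_inv := by
    rintro (_ | ⟨x, y, h⟩)
    · rfl
    · have e := (coordEquiv C).symm_apply_apply (x, y)
      rw [Prod.ext_iff] at e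
      dsimp only
      congr 1
      · exact e.1
      · exact e.2
  right_inv := by
    rintro (_ | ⟨x, y, h⟩)
    · rfl
    · have e := (coordEquiv C).apply_symm_apply (x, y)
      rw [Prod.ext_iff] at e
      dsimp only
      congr 1
      · exact e.1
      · exact e.2

/-- The trace of Frobenius is invariant under changes of variables. -/
theorem traceOfFrobenius_variableChange :
    (C • W).traceOfFrobenius = W.traceOfFrobenius := by
  unfold WeierstrassCurve.traceOfFrobenius WeierstrassCurve.card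
  rw [Nat.card_congr (pointEquiv C W)]

end Points

section Padic

variable {ℓ : ℕ} [hℓ : Fact ℓ.Prime]

/-- An element of `ℚ_ℓ` killed by a monic quartic with integral coefficients is integral. -/
theorem norm_le_one_of_quartic {x : ℚ_[ℓ]} {a b c : ℚ_[ℓ]} (ha : ‖a‖ ≤ 1) (hb : ‖b‖ ≤ 1)
    (hc : ‖c‖ ≤ 1) (h : x ^ 4 = a * x ^ 2 + b * x + c) : ‖x‖ ≤ 1 := by
  by_contra hx
  push Not at hx
  have h1 : ‖x‖ ≤ ‖x‖ ^ 2 := le_self_pow₀ hx.le two_ne_zero
  have e1 : ‖a * x ^ 2‖ ≤ ‖x‖ ^ 2 := by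
    rw [norm_mul, norm_pow]; exact mul_le_of_le_one_left (by positivity) ha
  have e2 : ‖b * x‖ ≤ ‖x‖ ^ 2 := by
    rw [norm_mul]; exact (mul_le_of_le_one_left (norm_nonneg _) hb).trans h1
  have e3 : ‖c‖ ≤ ‖x‖ ^ 2 := hc.trans (one_le_pow₀ hx.le)
  have key : ‖x ^ 4‖ ≤ ‖x‖ ^ 2 := by
    rw [h]
    exact (Padic.nonarchimedean _ _).trans
      (max_le ((Padic.nonarchimedean _ _).trans (max_le e1 e2)) e3)
  rw [norm_pow] at key
  exact absurd key (not_le.2 (pow_lt_pow_right₀ hx (by norm_num)))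

/-- An element of `ℚ_ℓ` killed by a monic quadratic with integral coefficients is integral. -/
theorem norm_le_one_of_quadratic {x : ℚ_[ℓ]} {b c : ℚ_[ℓ]} (hb : ‖b‖ ≤ 1) (hc : ‖c‖ ≤ 1)
    (h : x ^ 2 = b * x + c) : ‖x‖ ≤ 1 :=
  norm_le_one_of_quartic (a := b ^ 2 + c) (b := b * c) (c := 0)
    ((Padic.nonarchimedean _ _).trans
      (max_le (by rw [norm_pow]; exact pow_le_one₀ (norm_nonneg _) hb) hc))
    (by rw [norm_mul]; exact mul_le_one₀ hb (norm_nonneg _) hc) (by simp)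
    (by linear_combination (x ^ 2 + b * x) * h)

/-- A change of variables over `ℚ_ℓ` between models with integral coefficients and unit
discriminants is itself integral, so reduces modulo `ℓ`. -/
theorem exists_reduced_variableChange {W W' : WeierstrassCurve ℤ} {D : VariableChange ℚ}
    (hD : D • W.map (Int.castRingHom ℚ) = W'.map (Int.castRingHom ℚ))
    (hW : ¬ (ℓ : ℤ) ∣ W.Δ) (hW' : ¬ (ℓ : ℤ) ∣ W'.Δ) :
    ∃ E : VariableChange (ZMod ℓ), E • W.reductionMod ℓ = W'.reductionMod ℓ := by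
  set f : ℚ →+* ℚ_[ℓ] := Rat.castHom ℚ_[ℓ]
  set C : VariableChange ℚ_[ℓ] := D.map f
  have hC : C • W.map (Int.castRingHom ℚ_[ℓ]) = W'.map (Int.castRingHom ℚ_[ℓ]) := by
    have := congrArg (fun V : WeierstrassCurve ℚ => V.map f) hD
    simpa only [← map_variableChange, WeierstrassCurve.map_map,
      RingHom.ext_int (f.comp (Int.castRingHom ℚ)) (Int.castRingHom ℚ_[ℓ])] using this
  have hint : ∀ n : ℤ, ‖(n : ℚ_[ℓ])‖ ≤ 1 := Padic.norm_int_le_one
  have hunit : ∀ n : ℤ, ¬ (ℓ : ℤ) ∣ n → ‖(n : ℚ_[ℓ])‖ = 1 := fun n hn =>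
    le_antisymm (hint n) (not_lt.1 fun h => hn ((Padic.norm_intCast_lt_one_iff).1 h))
  have eΔ : (↑C.u⁻¹ : ℚ_[ℓ]) ^ 12 * (W.Δ : ℚ_[ℓ]) = (W'.Δ : ℚ_[ℓ]) := by
    have := congrArg WeierstrassCurve.Δ hC
    simpa [variableChange_Δ] using this
  have hui : ‖(↑C.u⁻¹ : ℚ_[ℓ])‖ = 1 := by
    have := congrArg norm eΔ
    rw [norm_mul, norm_pow, hunit _ hW, hunit _ hW', mul_one] at this
    exact (pow_eq_one_iff_of_nonneg (norm_nonneg _) (by norm_num)).1 this
  have hu : ‖(C.u : ℚ_[ℓ])‖ = 1 := by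
    have := congrArg norm C.u.mul_inv
    rwa [norm_mul, hui, mul_one, norm_one] at this
  -- Work in the closed unit disc, a subring.
  set O : Subring ℚ_[ℓ] := PadicInt.subring ℓ
  have hO : ∀ z : ℚ_[ℓ], z ∈ O ↔ ‖z‖ ≤ 1 := fun z => Iff.rfl
  have hz : ∀ n : ℤ, (n : ℚ_[ℓ]) ∈ O := fun n => intCast_mem O n
  have huO : (C.u : ℚ_[ℓ]) ∈ O := hu.le
  have hcoef : ∀ g : WeierstrassCurve ℤ → ℤ, (g W' : ℚ_[ℓ]) ∈ O ∧ (g W : ℚ_[ℓ]) ∈ O :=
    fun g => ⟨hz _, hz _⟩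
  have hinv : ∀ n : ℕ, (C.u : ℚ_[ℓ]) ^ n * (↑C.u⁻¹ : ℚ_[ℓ]) ^ n = 1 := fun n =>
    pow_mul_pow_eq_one n C.u.mul_inv
  have e6 := congrArg WeierstrassCurve.b₆ hC
  have e8 := congrArg WeierstrassCurve.b₈ hC
  have e2 := congrArg WeierstrassCurve.a₂ hC
  have ea6 := congrArg WeierstrassCurve.a₆ hC
  simp only [variableChange_b₆, variableChange_b₈, variableChange_a₂, variableChange_a₆,
    map_b₂, map_b₄, map_b₆, map_b₈, map_a₁, map_a₂, map_a₃, map_a₄, map_a₆, eq_intCast]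
    at e6 e8 e2 ea6
  have hr : C.r ∈ O := by
    refine (hO _).2 (norm_le_one_of_quartic (a := (W.b₄ : ℚ_[ℓ]))
      (b := 2 * (W.b₆ : ℚ_[ℓ]) + (C.u : ℚ_[ℓ]) ^ 6 * (W'.b₆ : ℚ_[ℓ]))
      (c := (W.b₈ : ℚ_[ℓ]) - (C.u : ℚ_[ℓ]) ^ 8 * (W'.b₈ : ℚ_[ℓ])) (hz _) ?_ ?_ ?_)
    · exact add_mem (mul_mem (by simp) (hz _)) (mul_mem (pow_mem huO _) (hz _))
    · exact sub_mem (hz _) (mul_mem (pow_mem huO _) (hz _))
    · linear_combination (C.u : ℚ_[ℓ]) ^ 6 * C.r * e6 - (C.u : ℚ_[ℓ]) ^ 8 * e8 -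
        C.r * ((W.b₆ : ℚ_[ℓ]) + 2 * C.r * (W.b₄ : ℚ_[ℓ]) + C.r ^ 2 * (W.b₂ : ℚ_[ℓ])
          + 4 * C.r ^ 3) * hinv 6 +
        ((W.b₈ : ℚ_[ℓ]) + 3 * C.r * (W.b₆ : ℚ_[ℓ]) + 3 * C.r ^ 2 * (W.b₄ : ℚ_[ℓ])
          + C.r ^ 3 * (W.b₂ : ℚ_[ℓ]) + 3 * C.r ^ 4) * hinv 8
  have hs : C.s ∈ O := by
    refine (hO _).2 (norm_le_one_of_quadratic (b := -(W.a₁ : ℚ_[ℓ]))
      (c := (W.a₂ : ℚ_[ℓ]) + 3 * C.r - (C.u : ℚ_[ℓ]) ^ 2 * (W'.a₂ : ℚ_[ℓ])) ?_ ?_ ?_)
    · exact neg_mem (hz _)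
    · exact sub_mem (add_mem (hz _) (mul_mem (by simp) hr))
        (mul_mem (pow_mem huO _) (hz _))
    · linear_combination -(C.u : ℚ_[ℓ]) ^ 2 * e2 +
        ((W.a₂ : ℚ_[ℓ]) - C.s * (W.a₁ : ℚ_[ℓ]) + 3 * C.r - C.s ^ 2) * hinv 2
  have ht : C.t ∈ O := by
    refine (hO _).2 (norm_le_one_of_quadratic
      (b := -((W.a₃ : ℚ_[ℓ]) + C.r * (W.a₁ : ℚ_[ℓ])))
      (c := (W.a₆ : ℚ_[ℓ]) + C.r * (W.a₄ : ℚ_[ℓ]) + C.r ^ 2 * (W.a₂ : ℚ_[ℓ]) + C.r ^ 3
        - (C.u : ℚ_[ℓ]) ^ 6 * (W'.a₆ : ℚ_[ℓ])) ?_ ?_ ?_)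
    · exact neg_mem (add_mem (hz _) (mul_mem hr (hz _)))
    · exact sub_mem (add_mem (add_mem (add_mem (hz _) (mul_mem hr (hz _)))
        (mul_mem (pow_mem hr _) (hz _))) (pow_mem hr _)) (mul_mem (pow_mem huO _) (hz _))
    · linear_combination -(C.u : ℚ_[ℓ]) ^ 6 * ea6 +
        ((W.a₆ : ℚ_[ℓ]) + C.r * (W.a₄ : ℚ_[ℓ]) + C.r ^ 2 * (W.a₂ : ℚ_[ℓ]) + C.r ^ 3
          - C.t * (W.a₃ : ℚ_[ℓ]) - C.t ^ 2 - C.r * C.t * (W.a₁ : ℚ_[ℓ])) * hinv 6
  let u₀ : ℤ_[ℓ]ˣ := ⟨⟨C.u, hu.le⟩, ⟨(↑C.u⁻¹ : ℚ_[ℓ]), hui.le⟩,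
    Subtype.ext C.u.mul_inv, Subtype.ext C.u.inv_mul⟩
  let C₀ : VariableChange ℤ_[ℓ] := ⟨u₀, ⟨C.r, hr⟩, ⟨C.s, hs⟩, ⟨C.t, ht⟩⟩
  have hC₀ : C₀.map (PadicInt.Coe.ringHom (p := ℓ)) = C :=
    VariableChange.ext (Units.ext rfl) rfl rfl rfl
  have hinj : Function.Injective
      fun V : WeierstrassCurve ℤ_[ℓ] => V.map (PadicInt.Coe.ringHom (p := ℓ)) :=
    WeierstrassCurve.map_injective Subtype.coe_injective
  have h₀ : C₀ • W.map (Int.castRingHom ℤ_[ℓ]) = W'.map (Int.castRingHom ℤ_[ℓ]) := by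
    refine hinj ?_
    simp only [← map_variableChange, hC₀, WeierstrassCurve.map_map,
      RingHom.ext_int ((PadicInt.Coe.ringHom (p := ℓ)).comp (Int.castRingHom ℤ_[ℓ]))
        (Int.castRingHom ℚ_[ℓ])]
    exact hC
  refine ⟨C₀.map PadicInt.toZMod, ?_⟩
  have := congrArg (fun V : WeierstrassCurve ℤ_[ℓ] => V.map PadicInt.toZMod) h₀
  simpa only [← map_variableChange, WeierstrassCurve.map_map, WeierstrassCurve.reductionMod,
    RingHom.ext_int ((PadicInt.toZMod).comp (Int.castRingHom ℤ_[ℓ]))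
      (Int.castRingHom (ZMod ℓ))] using this

end Padic

/-- Two integral models of the same rational curve differ by a rational change of variables. -/
theorem exists_variableChange_of_models {E : WeierstrassCurve ℚ} {W W' : WeierstrassCurve ℤ}
    (h : W.IsIntegralModelOf E) (h' : W'.IsIntegralModelOf E) :
    ∃ D : VariableChange ℚ, D • W.map (Int.castRingHom ℚ) = W'.map (Int.castRingHom ℚ) := by
  obtain ⟨C, hC⟩ := h
  obtain ⟨C', hC'⟩ := h'
  exact ⟨C' * C⁻¹, by rw [mul_smul, ← hC, inv_smul_smul, hC']⟩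

/-- `a_ℓ` does not depend on the integral model at a common good prime. -/
theorem apOfModel_eq_of_models {E : WeierstrassCurve ℚ} {W W' : WeierstrassCurve ℤ}
    (h : W.IsIntegralModelOf E) (h' : W'.IsIntegralModelOf E) {ℓ : ℕ} (hℓ : ℓ.Prime)
    (hW : W.IsGoodPrimeFor ℓ) (hW' : W'.IsGoodPrimeFor ℓ) :
    W.apOfModel ℓ = W'.apOfModel ℓ := by
  have : Fact ℓ.Prime := ⟨hℓ⟩
  obtain ⟨D, hD⟩ := exists_variableChange_of_models h h'
  obtain ⟨E', hE'⟩ := exists_reduced_variableChange hD hW hW'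
  unfold WeierstrassCurve.apOfModel
  rw [← hE', traceOfFrobenius_variableChange]

/-- A semistable model is good at every prime at which some integral model is good. -/
theorem isGoodPrimeFor_of_semistable {E : WeierstrassCurve ℚ} {W W' : WeierstrassCurve ℤ}
    (h : W.IsIntegralModelOf E) (h' : W'.IsIntegralModelOf E) (hs : W'.IsSemistableModel)
    {ℓ : ℕ} (hℓ : ℓ.Prime) (hW : W.IsGoodPrimeFor ℓ) : W'.IsGoodPrimeFor ℓ := by
  have : Fact ℓ.Prime := ⟨hℓ⟩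
  intro hdvd
  obtain ⟨D, hD⟩ := exists_variableChange_of_models h' h
  have eΔ := congrArg (fun V : WeierstrassCurve ℚ => ((V.Δ : ℚ) : ℚ_[ℓ])) hD
  have ec := congrArg (fun V : WeierstrassCurve ℚ => ((V.c₄ : ℚ) : ℚ_[ℓ])) hD
  simp only [variableChange_Δ, variableChange_c₄, map_Δ, map_c₄, eq_intCast, Rat.cast_mul,
    Rat.cast_pow, Rat.cast_intCast] at eΔ ec
  replace eΔ := congrArg norm eΔ
  replace ec := congrArg norm ec
  simp only [norm_mul, norm_pow] at eΔ ec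
  have hc' : ‖(W'.c₄ : ℚ_[ℓ])‖ = 1 :=
    le_antisymm (Padic.norm_int_le_one _)
      (not_lt.1 fun hlt => hs ℓ hℓ hdvd (Padic.norm_intCast_lt_one_iff.1 hlt))
  have hΔ : ‖(W.Δ : ℚ_[ℓ])‖ = 1 :=
    le_antisymm (Padic.norm_int_le_one _)
      (not_lt.1 fun hlt => hW (Padic.norm_intCast_lt_one_iff.1 hlt))
  have hΔ' : ‖(W'.Δ : ℚ_[ℓ])‖ < 1 := Padic.norm_intCast_lt_one_iff.2 hdvd
  rw [hc', mul_one] at ec
  have hu : ‖((↑D.u⁻¹ : ℚ) : ℚ_[ℓ])‖ ≤ 1 :=
    (pow_le_one_iff_of_nonneg (norm_nonneg _) (by norm_num)).1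
      (ec ▸ Padic.norm_int_le_one _)
  have hlt : ‖((↑D.u⁻¹ : ℚ) : ℚ_[ℓ])‖ ^ 12 * ‖(W'.Δ : ℚ_[ℓ])‖ < 1 :=
    lt_of_le_of_lt (mul_le_of_le_one_left (norm_nonneg _) (pow_le_one₀ (norm_nonneg _) hu)) hΔ'
  rw [eΔ, hΔ] at hlt
  exact lt_irrefl _ hlt

end Fermat.Agent.LevelTwo
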