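import Fermat.Prelude.Def_FLTPrelim_ModularRep
import Fermat.Agent.FreyModel.Basic
import Fermat.Agent.LevelTwo.ModelInvariance

/-!
# Transfer of (residual) modularity between integral models

`ModularRepOfLevel` of a Frey package may be witnessed by any integral model of the Frey curve;
here it is compared with residual modularity of the minimal model `freyCurveInt`.
-/

set_option autoImplicit false

open WeierstrassCurve

namespace Fermat.Agent.LevelTwo

variable {E : WeierstrassCurve ℚ} {W W' : WeierstrassCurve ℤ}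

/-- The form of residual modularity on the minimal Frey model gives `ModularRepOfLevel`. -/
theorem modularRepOfLevel_of_freyCurveInt (P : FreyPackage) {N : ℕ}
    (hm : P.freyCurveInt.IsResiduallyModularOfLevel P.p N) : P.ModularRepOfLevel N := by
  obtain ⟨f, 𝔪, hf, hmax, hp, hc⟩ := hm
  exact ⟨f, P.freyCurveInt, 𝔪, hf, FreyModel.freyCurveInt_isIntegralModelOf P, hmax, hp, hc⟩

/-- Every witness of `ModularRepOfLevel` is congruent to the minimal Frey model at all primes
that are good for the witnessing model. -/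
theorem congruence_of_modularRepOfLevel (P : FreyPackage) {N : ℕ}
    (hm : P.ModularRepOfLevel N) :
    ∃ (f : CuspForm (CongruenceSubgroup.Gamma0 N) 2) (𝔪 : Ideal (integralClosure ℤ ℂ)) (D : ℤ),
      D ≠ 0 ∧ f.IsNormalizedEigenform ∧ 𝔪.IsMaximal ∧ (P.p : integralClosure ℤ ℂ) ∈ 𝔪 ∧
      ∀ ℓ : ℕ, ℓ.Prime → ¬ (ℓ : ℤ) ∣ D → ¬ ℓ ∣ N → ℓ ≠ P.p →
        P.freyCurveInt.IsGoodPrimeFor ℓ ∧
        ∃ a : integralClosure ℤ ℂ, (a : ℂ) = ModularFormClass.qCoeff f ℓ ∧
          a - ((P.freyCurveInt.apOfModel ℓ : ℤ) : integralClosure ℤ ℂ) ∈ 𝔪 := by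
  obtain ⟨f, W, 𝔪, hf, hW, hmax, hp, hc⟩ := hm
  have h' := FreyModel.freyCurveInt_isIntegralModelOf P
  have hs := FreyModel.freyCurveInt_isSemistableModel P
  refine ⟨f, 𝔪, W.Δ, ?_, hf, hmax, hp, fun ℓ hℓ hg hN hne => ?_⟩
  · intro h0
    obtain ⟨D, hD⟩ := exists_variableChange_of_models h' hW
    have := congrArg WeierstrassCurve.Δ hD
    simp only [variableChange_Δ, map_Δ, eq_intCast, h0, Int.cast_zero] at this
    rcases mul_eq_zero.1 this with h | h
    · exact pow_ne_zero 12 D.u⁻¹.ne_zero h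
    · exact FreyModel.freyCurveInt_Δ_ne_zero P (by exact_mod_cast h)
  have hg' := isGoodPrimeFor_of_semistable hW h' hs hℓ hg
  refine ⟨hg', ?_⟩
  rw [← apOfModel_eq_of_models hW h' hℓ hg hg']
  exact hc ℓ hℓ hg hN hne

end Fermat.Agent.LevelTwo
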