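import Mathlib.NumberTheory.ModularForms.CongruenceSubgroups
import Fermat.Prelude.Def_FLTPrelim_Ramification
import Fermat.Prelude.Def_FLTPrelim_ModularRep
import Fermat.Prelude.Def_FreyPackage_IsConductorLevel

/-!
# Descent of a conductor level to level 2

If the residual representation of a Frey package is modular of a conductor level `N`, and the
level can be lowered at `p` and at every odd prime `q ≠ p` at which the representation is
unramified, then it is modular of a level dividing `2`, so there is a nonzero cusp form of weight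
`2` on `Γ₀(2)`. Both lowering steps are hypotheses; the descent itself is elementary.
-/

set_option autoImplicit false

open WeierstrassCurve WeierstrassCurve.Affine.Point CongruenceSubgroup UpperHalfPlane

namespace Fermat.Agent.LevelTwo

/-- An irreducible modular representation loses an odd prime `q ≠ p` of its level at which it is
unramified. -/
def RemovesOddPrimes (P : FreyPackage) : Prop :=
  ∀ {N q : ℕ}, P.IsConductorLevel N → q.Prime → q ≠ 2 → q ≠ P.p → q ∣ N →
    GaloisRepIsIrreducible (K := AlgebraicClosure ℚ) ℚ P.freyCurve P.p →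
    P.ModularRepOfLevel N → P.GaloisRepUnramifiedAt q →
    ∃ M : ℕ, M ∣ N ∧ ¬ q ∣ M ∧ P.ModularRepOfLevel M

/-- An irreducible modular representation loses the prime `p` of its level. -/
def RemovesCharPrime (P : FreyPackage) : Prop :=
  ∀ {N : ℕ}, P.IsConductorLevel N → P.p ∣ N →
    GaloisRepIsIrreducible (K := AlgebraicClosure ℚ) ℚ P.freyCurve P.p →
    P.ModularRepOfLevel N → ∃ M : ℕ, M ∣ N ∧ ¬ P.p ∣ M ∧ P.ModularRepOfLevel M

/-- A squarefree number all of whose prime divisors equal `2` divides `2`. -/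
theorem dvd_two_of_squarefree {N : ℕ} (hN : Squarefree N)
    (h : ∀ q : ℕ, q.Prime → q ∣ N → q = 2) : N ∣ 2 := by
  rw [← hN.dvd_pow_iff_dvd (n := N) (by exact hN.ne_zero)]
  obtain ⟨k, hk⟩ : ∃ k, N = 2 ^ k :=
    ⟨N.primeFactorsList.length,
      Nat.eq_prime_pow_of_unique_prime_dvd hN.ne_zero (fun {d} hd hdN => h d hd hdN)⟩
  rw [hk]
  exact pow_dvd_pow 2 Nat.lt_two_pow_self.le

/-- Removing the odd primes other than `p` from a level prime to `p`. -/
theorem exists_level_dvd_two_of_not_dvd (P : FreyPackage)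
    (hunr : ∀ q : ℕ, q.Prime → q ≠ 2 → q ≠ P.p → P.GaloisRepUnramifiedAt q)
    (hodd : RemovesOddPrimes P)
    (hirr : GaloisRepIsIrreducible (K := AlgebraicClosure ℚ) ℚ P.freyCurve P.p)
    {N : ℕ} (hc : P.IsConductorLevel N) (hp : ¬ P.p ∣ N) (hm : P.ModularRepOfLevel N) :
    ∃ M : ℕ, M ∣ 2 ∧ P.ModularRepOfLevel M := by
  induction N using Nat.strong_induction_on with
  | _ N ih =>
    by_cases hex : ∃ q : ℕ, q.Prime ∧ q ∣ N ∧ q ≠ 2
    · obtain ⟨q, hq, hqN, hq2⟩ := hex
      have hqp : q ≠ P.p := fun e => hp (e ▸ hqN)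
      obtain ⟨M, hMN, hqM, hMm⟩ :=
        hodd hc hq hq2 hqp hqN hirr hm (hunr q hq hq2 hqp)
      have hMpos : 0 < M := Nat.pos_of_dvd_of_pos hMN hc.pos
      have hlt : M < N :=
        lt_of_le_of_ne (Nat.le_of_dvd hc.pos hMN) fun e => hqM (e ▸ hqN)
      exact ih M hlt (hc.of_dvd hMN hMpos) (fun h => hp (h.trans hMN)) hMm
    · push Not at hex
      exact ⟨N, dvd_two_of_squarefree hc.squarefree hex, hm⟩

/-- Full descent: first remove `p`, then every odd prime. -/
theorem exists_level_dvd_two (P : FreyPackage)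
    (hunr : ∀ q : ℕ, q.Prime → q ≠ 2 → q ≠ P.p → P.GaloisRepUnramifiedAt q)
    (hodd : RemovesOddPrimes P) (hchar : RemovesCharPrime P)
    (hirr : GaloisRepIsIrreducible (K := AlgebraicClosure ℚ) ℚ P.freyCurve P.p)
    {N : ℕ} (hc : P.IsConductorLevel N) (hm : P.ModularRepOfLevel N) :
    ∃ M : ℕ, M ∣ 2 ∧ P.ModularRepOfLevel M := by
  by_cases hp : P.p ∣ N
  · obtain ⟨M, hMN, hpM, hMm⟩ := hchar hc hp hirr hm
    exact exists_level_dvd_two_of_not_dvd P hunr hodd hirr
      (hc.of_dvd hMN (Nat.pos_of_dvd_of_pos hMN hc.pos)) hpM hMm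
  · exact exists_level_dvd_two_of_not_dvd P hunr hodd hirr hc hp hm

/-- Restriction of a cusp form along an inclusion of groups. -/
noncomputable def restrictCuspForm {Γ Γ' : Subgroup (GL (Fin 2) ℝ)} {k : ℤ} (h : Γ' ≤ Γ)
    (f : CuspForm Γ k) : CuspForm Γ' k where
  toFun := f
  slash_action_eq' γ hγ := SlashInvariantForm.slash_action_eqn f γ (h hγ)
  holo' := f.holo'
  zero_at_cusps' hc := f.zero_at_cusps' (hc.mono h)

@[simp]
theorem coe_restrictCuspForm {Γ Γ' : Subgroup (GL (Fin 2) ℝ)} {k : ℤ} (h : Γ' ≤ Γ)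
    (f : CuspForm Γ k) : (restrictCuspForm h f : ℍ → ℂ) = f :=
  rfl

/-- `Γ₀(N) ≤ Γ₀(M)` for `M ∣ N`. -/
theorem gamma0_le_of_dvd {M N : ℕ} (h : M ∣ N) : Gamma0 N ≤ Gamma0 M := by
  intro γ hγ
  rw [Gamma0_mem, ZMod.intCast_zmod_eq_zero_iff_dvd] at hγ ⊢
  exact (Int.natCast_dvd_natCast.mpr h).trans hγ

/-- A modular residual representation of some level dividing `2` gives a nonzero cusp form
of level `2`. -/
theorem exists_ne_zero_of_modularRepOfLevel (P : FreyPackage) {M : ℕ} (hM : M ∣ 2)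
    (hm : P.ModularRepOfLevel M) :
    ∃ f : CuspForm (Gamma0 2) 2, f ≠ 0 := by
  obtain ⟨f, W, 𝔪, hf, -⟩ := hm
  refine ⟨restrictCuspForm (Subgroup.map_mono (gamma0_le_of_dvd hM)) f, fun h0 => hf.ne_zero ?_⟩
  ext z
  exact congrArg (fun g : CuspForm (Gamma0 2) 2 => g z) h0

/-- **Descent to level two**: from unramifiedness, modularity of a conductor level and the two
lowering steps, a nonzero cusp form of weight `2` and level `2`. -/
theorem levelLoweringToTwo_of (P : FreyPackage)
    (hunr : ∀ q : ℕ, q.Prime → q ≠ 2 → q ≠ P.p → P.GaloisRepUnramifiedAt q)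
    (hlev : ∃ N : ℕ, P.IsConductorLevel N ∧ P.ModularRepOfLevel N)
    (hodd : RemovesOddPrimes P) (hchar : RemovesCharPrime P)
    (hirr : GaloisRepIsIrreducible (K := AlgebraicClosure ℚ) ℚ P.freyCurve P.p) :
    ∃ f : CuspForm (Gamma0 2) 2, f ≠ 0 := by
  obtain ⟨N, hc, hm⟩ := hlev
  obtain ⟨M, hM, hMm⟩ := exists_level_dvd_two P hunr hodd hchar hirr hc hm
  exact exists_ne_zero_of_modularRepOfLevel P hM hMm

end Fermat.Agent.LevelTwo
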